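/-
S52 [SPEC] (helper15; prefix `s52p_`), part 2: the place `s = c` of the rational function field
`k(s)`: the valuation subring of the functions without pole at `c`, evaluation at `c`, and the
identification of the residue field with `k`.
-/
import Mathlib

set_option autoImplicit false

namespace Fermat.Agent.S52

open Polynomial IsLocalRing

section place

variable {k : Type*} [Field k] (c : k)

/-- The valuation subring of `k(s)` of the functions without pole at `c`. -/
def s52p_B : ValuationSubring (RatFunc k) where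
  carrier := {f | (RatFunc.denom f).eval c ≠ 0}
  mul_mem' := fun {f g} hf hg h => by
    have := Polynomial.eval_eq_zero_of_dvd_of_eval_eq_zero (RatFunc.denom_mul_dvd f g) h
    rw [Polynomial.eval_mul] at this
    rcases mul_eq_zero.mp this with h | h
    · exact hf h
    · exact hg h
  one_mem' := by
    show (RatFunc.denom (1 : RatFunc k)).eval c ≠ 0
    rw [RatFunc.denom_one, Polynomial.eval_one]
    exact one_ne_zero
  add_mem' := fun {f g} hf hg h => by
    have := Polynomial.eval_eq_zero_of_dvd_of_eval_eq_zero (RatFunc.denom_add_dvd f g) h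
    rw [Polynomial.eval_mul] at this
    rcases mul_eq_zero.mp this with h | h
    · exact hf h
    · exact hg h
  zero_mem' := by
    show (RatFunc.denom (0 : RatFunc k)).eval c ≠ 0
    rw [RatFunc.denom_zero, Polynomial.eval_one]
    exact one_ne_zero
  neg_mem' := fun {f} hf h => by
    have hd : RatFunc.denom (-f) ∣ RatFunc.denom f :=
      (RatFunc.denom_dvd (RatFunc.denom_ne_zero f)).2
        ⟨-RatFunc.num f, by rw [map_neg, neg_div, RatFunc.num_div_denom]⟩
    exact hf (Polynomial.eval_eq_zero_of_dvd_of_eval_eq_zero hd h)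
  mem_or_inv_mem' := fun f => by
    by_cases hf : f = 0
    · left
      show (RatFunc.denom f).eval c ≠ 0
      rw [hf, RatFunc.denom_zero, Polynomial.eval_one]
      exact one_ne_zero
    by_cases h : (RatFunc.denom f).eval c = 0
    · right
      intro h'
      have h2 := Polynomial.eval_eq_zero_of_dvd_of_eval_eq_zero (RatFunc.denom_inv_dvd hf) h'
      obtain ⟨u, v, huv⟩ := RatFunc.isCoprime_num_denom f
      have := congrArg (Polynomial.eval c) huv
      simp [h, h2] at this
    · left
      exact h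

theorem s52p_mem_B {f : RatFunc k} : f ∈ s52p_B c ↔ (RatFunc.denom f).eval c ≠ 0 := Iff.rfl

theorem s52p_algebraMap_mem (p : k[X]) : algebraMap k[X] (RatFunc k) p ∈ s52p_B c := by
  rw [s52p_mem_B, RatFunc.denom_algebraMap, Polynomial.eval_one]
  exact one_ne_zero

/-- membership from any representation as a fraction with denominator not vanishing at `c` -/
theorem s52p_div_mem (p q : k[X]) (hq : q.eval c ≠ 0) :
    algebraMap k[X] (RatFunc k) p / algebraMap k[X] (RatFunc k) q ∈ s52p_B c := by
  rw [s52p_mem_B]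
  intro h
  exact hq (Polynomial.eval_eq_zero_of_dvd_of_eval_eq_zero (RatFunc.denom_div_dvd p q) h)

/-- Evaluation at `c`. -/
noncomputable def s52p_ev : ↥(s52p_B c) →+* k where
  toFun x := RatFunc.eval (RingHom.id k) c (x : RatFunc k)
  map_one' := RatFunc.eval_one _ _
  map_mul' x y := RatFunc.eval_mul (RingHom.id k) c x.2 y.2
  map_zero' := RatFunc.eval_zero _ _
  map_add' x y := RatFunc.eval_add (RingHom.id k) c x.2 y.2

theorem s52p_ev_apply (x : ↥(s52p_B c)) :
    s52p_ev c x = (RatFunc.num (x : RatFunc k)).eval c / (RatFunc.denom (x : RatFunc k)).eval c :=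
  rfl

theorem s52p_ev_algebraMap (p : k[X]) :
    s52p_ev c ⟨algebraMap k[X] (RatFunc k) p, s52p_algebraMap_mem c p⟩ = p.eval c := by
  rw [s52p_ev_apply]
  simp only [RatFunc.num_algebraMap, RatFunc.denom_algebraMap, Polynomial.eval_one, div_one]

/-- evaluation of a fraction -/
theorem s52p_ev_div (p q : k[X]) (hq : q.eval c ≠ 0) :
    s52p_ev c ⟨_, s52p_div_mem c p q hq⟩ = p.eval c / q.eval c := by
  have hq0 : q ≠ 0 := fun h => hq (by rw [h, Polynomial.eval_zero])
  have hqF : algebraMap k[X] (RatFunc k) q ≠ 0 := RatFunc.algebraMap_ne_zero hq0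
  have hmem := s52p_algebraMap_mem c q
  have h1 : (⟨_, s52p_div_mem c p q hq⟩ : ↥(s52p_B c)) * ⟨_, hmem⟩ =
      ⟨_, s52p_algebraMap_mem c p⟩ := by
    apply Subtype.ext
    show algebraMap k[X] (RatFunc k) p / algebraMap k[X] (RatFunc k) q *
      algebraMap k[X] (RatFunc k) q = algebraMap k[X] (RatFunc k) p
    rw [div_mul_cancel₀ _ hqF]
  have h2 := congrArg (s52p_ev c) h1
  rw [map_mul, s52p_ev_algebraMap, s52p_ev_algebraMap] at h2
  rw [eq_div_iff hq]
  exact h2

theorem s52p_ev_surjective : Function.Surjective (s52p_ev c) := fun a =>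
  ⟨⟨algebraMap k[X] (RatFunc k) (Polynomial.C a), s52p_algebraMap_mem c _⟩, by
    rw [s52p_ev_algebraMap, Polynomial.eval_C]⟩

theorem s52p_ev_eq_zero_iff (x : ↥(s52p_B c)) :
    s52p_ev c x = 0 ↔ (RatFunc.num (x : RatFunc k)).eval c = 0 := by
  rw [s52p_ev_apply, div_eq_zero_iff]
  exact ⟨fun h => h.resolve_right x.2, Or.inl⟩

theorem s52p_isUnit_iff (x : ↥(s52p_B c)) : IsUnit x ↔ s52p_ev c x ≠ 0 := by
  constructor
  · intro h
    exact (h.map (s52p_ev c)).ne_zero
  · intro h
    rw [Ne, s52p_ev_eq_zero_iff] at h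
    have hx0 : (x : RatFunc k) ≠ 0 := by
      intro h0
      apply h
      rw [h0, RatFunc.num_zero, Polynomial.eval_zero]
    have hinv : (x : RatFunc k)⁻¹ ∈ s52p_B c := by
      rw [s52p_mem_B]
      intro h'
      exact h (Polynomial.eval_eq_zero_of_dvd_of_eval_eq_zero (RatFunc.denom_inv_dvd hx0) h')
    refine isUnit_iff_exists_inv.2 ⟨⟨_, hinv⟩, ?_⟩
    apply Subtype.ext
    show (x : RatFunc k) * (x : RatFunc k)⁻¹ = 1
    exact mul_inv_cancel₀ hx0

theorem s52p_ker_ev : RingHom.ker (s52p_ev c) = maximalIdeal ↥(s52p_B c) := by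
  ext x
  rw [RingHom.mem_ker, mem_maximalIdeal, mem_nonunits_iff, s52p_isUnit_iff, not_not]

/-- The residue field of the place `s = c` is `k`, by evaluation. -/
noncomputable def s52p_resEquiv : ResidueField ↥(s52p_B c) ≃+* k :=
  (Ideal.quotEquivOfEq (s52p_ker_ev c).symm).trans
    (RingHom.quotientKerEquivOfSurjective (s52p_ev_surjective c))

theorem s52p_resEquiv_residue (x : ↥(s52p_B c)) :
    s52p_resEquiv c (residue ↥(s52p_B c) x) = s52p_ev c x := rfl

/-- a nonzero constant is a unit at every place -/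
theorem s52p_valuation_natCast [CharZero k] (n : ℕ) (hn : n ≠ 0) :
    (s52p_B c).valuation ((n : ℕ) : RatFunc k) = 1 := by
  have hmem : ((n : ℕ) : RatFunc k) ∈ s52p_B c := by
    have : ((n : ℕ) : RatFunc k) = algebraMap k[X] (RatFunc k) (n : k[X]) := by
      rw [map_natCast]
    rw [this]
    exact s52p_algebraMap_mem c _
  have hu : IsUnit (⟨_, hmem⟩ : ↥(s52p_B c)) := by
    rw [s52p_isUnit_iff]
    have : (⟨_, hmem⟩ : ↥(s52p_B c)) = ((n : ℕ) : ↥(s52p_B c)) := by
      apply Subtype.ext
      simp
    rw [this, map_natCast]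
    exact Nat.cast_ne_zero.2 hn
  exact ((s52p_B c).valuation_eq_one_iff ⟨_, hmem⟩).1 hu

end place

end Fermat.Agent.S52
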