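/-
S52 [SPEC] (helper15; prefix `s52p_`), part 1: points of Weierstrass curves along ring
homomorphisms of fields (no algebra structures needed) and along equalities of curves.
-/
import Mathlib

set_option autoImplicit false

namespace Fermat.Agent.S52

open WeierstrassCurve WeierstrassCurve.Affine

section ptMap

variable {K L M : Type*} [Field K] [Field L] [Field M] [DecidableEq K] [DecidableEq L]
  [DecidableEq M]

/-- The map on nonsingular points induced by a ring homomorphism of fields. -/
noncomputable def s52p_ptMap (f : K →+* L) (W : Affine K) :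
    W.Point →+ (W.map f).toAffine.Point where
  toFun P := match P with
    | 0 => 0
    | Point.some x y h => Point.some (f x) (f y) ((W.map_nonsingular f.injective x y).mpr h)
  map_zero' := rfl
  map_add' := by
    rintro (_ | ⟨x₁, y₁, h₁⟩) (_ | ⟨x₂, y₂, h₂⟩)
    any_goals rfl
    by_cases hxy : x₁ = x₂ ∧ y₁ = W.negY x₂ y₂
    · rw [Point.add_of_Y_eq hxy.left hxy.right]
      exact (Point.add_of_Y_eq (congr_arg _ hxy.left) (by rw [hxy.right, map_negY])).symm
    · rw [Point.add_some hxy]
      have hxy' : ¬(f x₁ = f x₂ ∧ f y₁ = (W.map f).toAffine.negY (f x₂) (f y₂)) := by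
        rintro ⟨h1, h2⟩
        rw [map_negY] at h2
        exact hxy ⟨f.injective h1, f.injective h2⟩
      have := (Point.add_some (h₁ := (W.map_nonsingular f.injective x₁ y₁).mpr h₁)
        (h₂ := (W.map_nonsingular f.injective x₂ y₂).mpr h₂) hxy').symm
      simp only [map_addX, map_addY, map_slope] at this
      exact this

@[simp] lemma s52p_ptMap_zero (f : K →+* L) (W : Affine K) : s52p_ptMap f W 0 = 0 := rfl

@[simp] lemma s52p_ptMap_some (f : K →+* L) (W : Affine K) {x y : K} (h : W.Nonsingular x y) :
    s52p_ptMap f W (Point.some x y h) =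
      Point.some (f x) (f y) ((W.map_nonsingular f.injective x y).mpr h) := rfl

lemma s52p_ptMap_injective (f : K →+* L) (W : Affine K) :
    Function.Injective (s52p_ptMap f W) := by
  rintro (_ | ⟨x₁, y₁, h₁⟩) (_ | ⟨x₂, y₂, h₂⟩) h
  · rfl
  · exact absurd h.symm (Point.some_ne_zero _)
  · exact absurd h (Point.some_ne_zero _)
  · simp only [s52p_ptMap_some, Point.some.injEq] at h
    obtain ⟨hx, hy⟩ := h
    have hx' := f.injective hx
    have hy' := f.injective hy
    subst hx' hy'
    rfl

/-- Transport of points along an equality of curves. -/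
def s52p_ptCast {W W' : Affine K} (h : W = W') : W.Point ≃+ W'.Point := by
  subst h
  exact AddEquiv.refl _

@[simp] lemma s52p_ptCast_zero {W W' : Affine K} (h : W = W') : s52p_ptCast h 0 = 0 := by
  subst h; rfl

lemma s52p_ptCast_some {W W' : Affine K} (h : W = W') {x y : K} (hxy : W.Nonsingular x y) :
    s52p_ptCast h (Point.some x y hxy) = Point.some x y (h ▸ hxy) := by
  subst h; rfl

/-- The map on points induced by a ring homomorphism of fields, with prescribed target curve. -/
noncomputable def s52p_ptMapTo (f : K →+* L) {W : Affine K} {W' : Affine L}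
    (h : W.map f = W') : W.Point →+ W'.Point :=
  (s52p_ptCast (W := (W.map f).toAffine) (W' := W') h).toAddMonoidHom.comp (s52p_ptMap f W)

@[simp] lemma s52p_ptMapTo_zero (f : K →+* L) {W : Affine K} {W' : Affine L}
    (h : W.map f = W') : s52p_ptMapTo f h 0 = 0 := map_zero _

omit [DecidableEq K] [DecidableEq L] in
lemma s52p_nonsingular_of_map (f : K →+* L) {W : Affine K} {W' : Affine L}
    (h : W.map f = W') {x y : K} (hxy : W.Nonsingular x y) : W'.Nonsingular (f x) (f y) := by
  subst h
  exact (W.map_nonsingular f.injective x y).mpr hxy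

lemma s52p_ptMapTo_some (f : K →+* L) {W : Affine K} {W' : Affine L}
    (h : W.map f = W') {x y : K} (hxy : W.Nonsingular x y) :
    s52p_ptMapTo f h (Point.some x y hxy) =
      Point.some (f x) (f y) (s52p_nonsingular_of_map f h hxy) := by
  subst h
  rfl

lemma s52p_ptMapTo_injective (f : K →+* L) {W : Affine K} {W' : Affine L}
    (h : W.map f = W') : Function.Injective (s52p_ptMapTo f h) := by
  intro P Q hPQ
  apply s52p_ptMap_injective f W
  exact (s52p_ptCast (W := (W.map f).toAffine) (W' := W') h).injective hPQ

end ptMap

end Fermat.Agent.S52
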