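/-
S52 [SPEC] (helper15; prefix `s52p_`), part 3: the family `y² = x³ + a(s) x + b(s)` over `k(s)`,
its reduction at a place `s = c` of good reduction, and the compatibility with automorphisms of
`k` fixing `a`, `b`, `c`.
-/
import Fermat.Agent.S52.SPEC.PtMap
import Fermat.Agent.S52.SPEC.Place
import Fermat.Agent.S52.NOS.Short
import Fermat.Agent.S58.Red.Hom

set_option autoImplicit false

namespace Fermat.Agent.S52

open WeierstrassCurve WeierstrassCurve.Affine IsLocalRing Polynomial Fermat.Agent.S58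

noncomputable section

section family

variable {k : Type*} [Field k] (a b : k[X]) (c : k)

/-- The generic fibre `y² = x³ + a(s) x + b(s)` over `k(s)`. -/
def s52p_EE : Affine (RatFunc k) :=
  s52n_short (algebraMap k[X] (RatFunc k) a) (algebraMap k[X] (RatFunc k) b)

/-- The fibre at `s = c`. -/
def s52p_fib : Affine k := s52n_short (a.eval c) (b.eval c)

/-- The integral model at the place `s = c`. -/
def s52p_WA : WeierstrassCurve ↥(s52p_B c) :=
  s52n_short ⟨algebraMap k[X] (RatFunc k) a, s52p_algebraMap_mem c a⟩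
    ⟨algebraMap k[X] (RatFunc k) b, s52p_algebraMap_mem c b⟩

theorem s52p_WA_map_subtype : (s52p_WA a b c).map (s52p_B c).subtype = s52p_EE a b := by
  rw [s52p_WA, s52n_short_map]
  rfl

/-- The reduction of the integral model, over the abstract residue field. -/
def s52p_Wk : Affine (ResidueField ↥(s52p_B c)) := (s52p_WA a b c).map (residue ↥(s52p_B c))

theorem s52p_model [DecidableEq k] [DecidableEq (ResidueField ↥(s52p_B c))] :
    s58r_Model (s52p_B c) (s52p_EE a b) (s52p_Wk a b c) :=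
  ⟨s52p_WA a b c, s52p_WA_map_subtype a b c, rfl⟩

theorem s52p_Wk_map_resEquiv :
    WeierstrassCurve.map (s52p_Wk a b c) (s52p_resEquiv c).toRingHom = s52p_fib a b c := by
  show WeierstrassCurve.map (WeierstrassCurve.map (s52p_WA a b c) (residue ↥(s52p_B c)))
    (s52p_resEquiv c).toRingHom = s52p_fib a b c
  rw [s52p_WA, s52n_short_map, s52n_short_map, s52p_fib]
  congr 1
  · exact s52p_ev_algebraMap c a
  · exact s52p_ev_algebraMap c b

theorem s52p_fib_Δ : (s52p_fib a b c).Δ = -16 * (4 * (a.eval c) ^ 3 + 27 * (b.eval c) ^ 2) :=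
  s52n_short_Δ _ _

theorem s52p_Wk_Δ_ne_zero (hc : 4 * (a.eval c) ^ 3 + 27 * (b.eval c) ^ 2 ≠ 0)
    (h2 : (2 : k) ≠ 0) : (s52p_Wk a b c).Δ ≠ 0 := by
  intro h
  have h1 : (WeierstrassCurve.map (s52p_Wk a b c) (s52p_resEquiv c).toRingHom).Δ = 0 := by
    rw [WeierstrassCurve.map_Δ, h, map_zero]
  rw [s52p_Wk_map_resEquiv, s52p_fib_Δ] at h1
  have h16 : (-16 : k) ≠ 0 := by
    have : (-16 : k) = -(2 ^ 4) := by norm_num
    rw [this]
    exact neg_ne_zero.mpr (pow_ne_zero _ h2)
  exact (mul_ne_zero h16 hc) h1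

end family

section red

variable {k : Type*} [Field k] [DecidableEq k] [DecidableEq (RatFunc k)] (a b : k[X]) (c : k)

/-- every point of the generic fibre has a nonsingular reduction at a place of good reduction -/
theorem s52p_mem_E0 [DecidableEq (ResidueField ↥(s52p_B c))]
    (hc : 4 * (a.eval c) ^ 3 + 27 * (b.eval c) ^ 2 ≠ 0) (h2 : (2 : k) ≠ 0)
    (P : (s52p_EE a b).Point) : P ∈ s58r_E0 (s52p_model a b c) :=
  s58r_mem_E0_of_good (s52p_model a b c) (s52p_Wk_Δ_ne_zero a b c hc h2) P

/-- **Reduction at `s = c`** of the points of the generic fibre, at a place of good reduction. -/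
def s52p_red (hc : 4 * (a.eval c) ^ 3 + 27 * (b.eval c) ^ 2 ≠ 0) (h2 : (2 : k) ≠ 0) :
    (s52p_EE a b).Point →+ (s52p_fib a b c).Point :=
  letI : DecidableEq (ResidueField ↥(s52p_B c)) := Classical.decEq _
  { toFun := fun P => s52p_ptMapTo (s52p_resEquiv c).toRingHom (s52p_Wk_map_resEquiv a b c)
      (s58r_red (s52p_model a b c) ⟨P, s52p_mem_E0 a b c hc h2 P⟩)
    map_zero' := by
      have : (⟨0, s52p_mem_E0 a b c hc h2 0⟩ : s58r_E0 (s52p_model a b c)) = 0 := rfl
      rw [this, map_zero, map_zero]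
    map_add' := fun P Q => by
      have : (⟨P + Q, s52p_mem_E0 a b c hc h2 (P + Q)⟩ : s58r_E0 (s52p_model a b c)) =
          ⟨P, s52p_mem_E0 a b c hc h2 P⟩ + ⟨Q, s52p_mem_E0 a b c hc h2 Q⟩ := rfl
      rw [this, map_add, map_add] }

end red

end

end Fermat.Agent.S52
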