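/-
S52 [SPEC] (helper15; prefix `s52p_`), part 4: coordinates of the reduction, injectivity on
torsion, and equivariance of the reduction at `s = c` under ring endomorphisms of `k` fixing
`a`, `b`, `c` (acting coefficientwise on `k(s)`).
-/
import Fermat.Agent.S52.SPEC.Red

set_option autoImplicit false
set_option linter.style.haveILetI false

namespace Fermat.Agent.S52

open WeierstrassCurve WeierstrassCurve.Affine IsLocalRing Polynomial Fermat.Agent.S58

noncomputable section

section mapF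

variable {k : Type*} [Field k] (τ : k →+* k)

theorem s52p_mapF_aux : Function.Injective
    ((algebraMap k[X] (RatFunc k)).comp (Polynomial.mapRingHom τ)) :=
  (RatFunc.algebraMap_injective k).comp (Polynomial.map_injective τ τ.injective)

/-- The coefficientwise action of a ring endomorphism of `k` on `k(s)`. -/
def s52p_mapF : RatFunc k →+* RatFunc k :=
  RatFunc.liftRingHom ((algebraMap k[X] (RatFunc k)).comp (Polynomial.mapRingHom τ))
    (nonZeroDivisors_le_comap_nonZeroDivisors_of_injective _ (s52p_mapF_aux τ))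

theorem s52p_mapF_div (p q : k[X]) :
    s52p_mapF τ (algebraMap k[X] (RatFunc k) p / algebraMap k[X] (RatFunc k) q) =
      algebraMap k[X] (RatFunc k) (p.map τ) / algebraMap k[X] (RatFunc k) (q.map τ) :=
  RatFunc.liftRingHom_apply_div _ _ p q

theorem s52p_mapF_algebraMap (p : k[X]) :
    s52p_mapF τ (algebraMap k[X] (RatFunc k) p) = algebraMap k[X] (RatFunc k) (p.map τ) := by
  have := s52p_mapF_div τ p 1
  simpa using this

variable {τ} {c : k}

theorem s52p_eval_map (hc : τ c = c) (p : k[X]) : (p.map τ).eval c = τ (p.eval c) := by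
  conv_lhs => rw [← hc]
  rw [Polynomial.eval_map, Polynomial.eval₂_at_apply]

theorem s52p_mapF_mem (hc : τ c = c) {f : RatFunc k} (hf : f ∈ s52p_B c) :
    s52p_mapF τ f ∈ s52p_B c := by
  rw [← RatFunc.num_div_denom f, s52p_mapF_div]
  refine s52p_div_mem c _ _ ?_
  rw [s52p_eval_map hc]
  exact (map_ne_zero τ).2 hf

theorem s52p_ev_mapF (hc : τ c = c) (x : ↥(s52p_B c)) :
    s52p_ev c ⟨s52p_mapF τ x, s52p_mapF_mem hc x.2⟩ = τ (s52p_ev c x) := by
  have hd : ((RatFunc.denom (x : RatFunc k)).map τ).eval c ≠ 0 := by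
    rw [s52p_eval_map hc]
    exact (map_ne_zero τ).2 x.2
  have h1 : (⟨s52p_mapF τ x, s52p_mapF_mem hc x.2⟩ : ↥(s52p_B c)) =
      ⟨_, s52p_div_mem c ((RatFunc.num (x : RatFunc k)).map τ)
        ((RatFunc.denom (x : RatFunc k)).map τ) hd⟩ := by
    apply Subtype.ext
    show s52p_mapF τ (x : RatFunc k) = _
    conv_lhs => rw [← RatFunc.num_div_denom (x : RatFunc k)]
    rw [s52p_mapF_div]
  rw [h1, s52p_ev_div c _ _ hd, s52p_eval_map hc, s52p_eval_map hc, s52p_ev_apply, map_div₀]

theorem s52p_mapF_not_mem (hc : τ c = c) {f : RatFunc k} (hf : f ∉ s52p_B c) :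
    s52p_mapF τ f ∉ s52p_B c := by
  intro hmem
  have hinv : f⁻¹ ∈ s52p_B c := ((s52p_B c).mem_or_inv_mem f).resolve_left hf
  have hf0 : f ≠ 0 := fun h => hf (h ▸ (s52p_B c).zero_mem)
  -- `f⁻¹` is not a unit
  have hnu : s52p_ev c ⟨f⁻¹, hinv⟩ = 0 := by
    by_contra h
    have hu := (s52p_isUnit_iff c ⟨f⁻¹, hinv⟩).2 h
    obtain ⟨y, hy⟩ := isUnit_iff_exists_inv.1 hu
    have h1 : f⁻¹ * (y : RatFunc k) = 1 := congrArg Subtype.val hy
    have h2 : (y : RatFunc k) = f := by
      have := congrArg (fun z => f * z) h1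
      simp only [mul_one] at this
      rw [← mul_assoc, mul_inv_cancel₀ hf0, one_mul] at this
      exact this
    exact hf (h2 ▸ y.2)
  have h3 := s52p_ev_mapF hc ⟨f⁻¹, hinv⟩
  rw [hnu, map_zero] at h3
  -- but the image of `f⁻¹` is a unit
  have hu : IsUnit (⟨s52p_mapF τ f⁻¹, s52p_mapF_mem hc hinv⟩ : ↥(s52p_B c)) := by
    refine isUnit_iff_exists_inv.2 ⟨⟨s52p_mapF τ f, hmem⟩, ?_⟩
    apply Subtype.ext
    show s52p_mapF τ f⁻¹ * s52p_mapF τ f = 1
    rw [← map_mul, inv_mul_cancel₀ hf0, map_one]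
  exact ((s52p_isUnit_iff c _).1 hu) h3

end mapF

section coords

variable {k : Type*} [Field k] [DecidableEq k] [DecidableEq (RatFunc k)] (a b : k[X]) (c : k)
  (hc : 4 * (a.eval c) ^ 3 + 27 * (b.eval c) ^ 2 ≠ 0) (h2 : (2 : k) ≠ 0)

omit [DecidableEq k] [DecidableEq (RatFunc k)] in
theorem s52p_y_mem {x y : RatFunc k} (h : (s52p_EE a b).Equation x y) (hx : x ∈ s52p_B c) :
    y ∈ s52p_B c := by
  rw [← s52p_WA_map_subtype a b c] at h
  exact s58r_y_mem (s52p_B c) (s52p_WA a b c) hx h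

/-- the reduction of a point with integral coordinates -/
theorem s52p_red_some_of_mem {x y : RatFunc k} (h : (s52p_EE a b).Nonsingular x y)
    (hx : x ∈ s52p_B c) :
    ∃ h' : (s52p_fib a b c).Nonsingular (s52p_ev c ⟨x, hx⟩)
        (s52p_ev c ⟨y, s52p_y_mem a b c h.1 hx⟩),
      s52p_red a b c hc h2 (Point.some x y h) = Point.some _ _ h' := by
  letI : DecidableEq (ResidueField ↥(s52p_B c)) := Classical.decEq _
  have hy := s52p_y_mem a b c h.1 hx
  obtain ⟨h', hr⟩ := s58r_red_some (s52p_model a b c)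
    ⟨Point.some x y h, s52p_mem_E0 a b c hc h2 _⟩ (a := ⟨x, hx⟩) (b := ⟨y, hy⟩) (h := h) rfl
  refine ⟨s52p_nonsingular_of_map (s52p_resEquiv c).toRingHom (s52p_Wk_map_resEquiv a b c) h', ?_⟩
  show s52p_ptMapTo (s52p_resEquiv c).toRingHom (s52p_Wk_map_resEquiv a b c)
    (s58r_red (s52p_model a b c) ⟨Point.some x y h, s52p_mem_E0 a b c hc h2 _⟩) = _
  rw [hr, s52p_ptMapTo_some]
  rfl

/-- the reduction of a point with a pole at `c` -/
theorem s52p_red_some_of_not_mem {x y : RatFunc k} (h : (s52p_EE a b).Nonsingular x y)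
    (hx : x ∉ s52p_B c) : s52p_red a b c hc h2 (Point.some x y h) = 0 := by
  letI : DecidableEq (ResidueField ↥(s52p_B c)) := Classical.decEq _
  have h0 : s58r_red (s52p_model a b c) ⟨Point.some x y h, s52p_mem_E0 a b c hc h2 _⟩ = 0 :=
    (s58r_red_eq_zero_iff (s52p_model a b c) _).2
      ((Fermat.Agent.S05.inKerRed_some h).2 hx)
  show s52p_ptMapTo (s52p_resEquiv c).toRingHom (s52p_Wk_map_resEquiv a b c)
    (s58r_red (s52p_model a b c) ⟨Point.some x y h, s52p_mem_E0 a b c hc h2 _⟩) = 0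
  rw [h0, map_zero]

/-- **the reduction is injective on torsion** (characteristic zero) -/
theorem s52p_red_injective_on_torsion [CharZero k] {n : ℕ} (hn : n ≠ 0)
    {P : (s52p_EE a b).Point} (hP : n • P = 0) (h0 : s52p_red a b c hc h2 P = 0) : P = 0 := by
  letI : DecidableEq (ResidueField ↥(s52p_B c)) := Classical.decEq _
  have h1 : s58r_red (s52p_model a b c) ⟨P, s52p_mem_E0 a b c hc h2 P⟩ = 0 := by
    apply s52p_ptMapTo_injective (s52p_resEquiv c).toRingHom (s52p_Wk_map_resEquiv a b c)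
    rw [map_zero]
    exact h0
  have := s58r_red_injective_on_torsion (s52p_model a b c) (n := n)
    (s52p_valuation_natCast c n hn) (P := ⟨P, s52p_mem_E0 a b c hc h2 P⟩) hP h1
  exact congrArg Subtype.val this

end coords

section equivariance

variable {k : Type*} [Field k] [DecidableEq k] [DecidableEq (RatFunc k)] (a b : k[X]) (c : k)
  (hc : 4 * (a.eval c) ^ 3 + 27 * (b.eval c) ^ 2 ≠ 0) (h2 : (2 : k) ≠ 0)
  (τ : k →+* k) (ha : a.map τ = a) (hb : b.map τ = b) (hcτ : τ c = c)

omit [DecidableEq k] [DecidableEq (RatFunc k)] in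
include ha hb in
theorem s52p_EE_map : WeierstrassCurve.map (s52p_EE a b) (s52p_mapF τ) = s52p_EE a b := by
  rw [s52p_EE, s52n_short_map, s52p_mapF_algebraMap, s52p_mapF_algebraMap, ha, hb]

omit [DecidableEq k] [DecidableEq (RatFunc k)] in
include ha hb hcτ in
theorem s52p_fib_map : WeierstrassCurve.map (s52p_fib a b c) τ = s52p_fib a b c := by
  rw [s52p_fib, s52n_short_map, ← s52p_eval_map hcτ, ← s52p_eval_map hcτ, ha, hb]

/-- **Equivariance of the reduction at `s = c`** under an endomorphism of `k` fixing the family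
and the point `c`. -/
theorem s52p_red_equivariant (P : (s52p_EE a b).Point) :
    s52p_red a b c hc h2 (s52p_ptMapTo (s52p_mapF τ) (s52p_EE_map a b τ ha hb) P) =
      s52p_ptMapTo τ (s52p_fib_map a b c τ ha hb hcτ) (s52p_red a b c hc h2 P) := by
  rcases P with _ | ⟨x, y, h⟩
  · have h0 : (Point.zero : (s52p_EE a b).Point) = 0 := rfl
    rw [h0, map_zero, map_zero, map_zero]
  · rw [s52p_ptMapTo_some]
    by_cases hx : x ∈ s52p_B c
    · obtain ⟨h', hr⟩ := s52p_red_some_of_mem a b c hc h2 h hx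
      obtain ⟨h'', hr'⟩ := s52p_red_some_of_mem a b c hc h2
        (s52p_nonsingular_of_map (s52p_mapF τ) (s52p_EE_map a b τ ha hb) h)
        (s52p_mapF_mem hcτ hx)
      rw [hr, hr', s52p_ptMapTo_some]
      simp only [Point.some.injEq]
      exact ⟨s52p_ev_mapF hcτ ⟨x, hx⟩, s52p_ev_mapF hcτ ⟨y, s52p_y_mem a b c h.1 hx⟩⟩
    · rw [s52p_red_some_of_not_mem a b c hc h2 h hx,
        s52p_red_some_of_not_mem a b c hc h2 _ (s52p_mapF_not_mem hcτ hx), map_zero]

end equivariance

end

end Fermat.Agent.S52
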