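/-
S52 [SPEC] (helper15; prefix `s52p_`), part 5: **specialisation of the 5-torsion**.

For `a, b ∈ ℚ[s]`: if all `25` points of order dividing `5` of `y² = x³ + a(s) x + b(s)` are
rational over `ℚ̄(s)`, then any two fibres of good reduction at rational points `c₁, c₂` have
isomorphic `5`-torsion as `Gal(ℚ̄/ℚ)`-modules (`s52_TorsIso`).
-/
import Fermat.Agent.S52.SPEC.Galois
import Fermat.Agent.S52.Seams
import Fermat.Agent.S13.Ladder.Vieta

set_option autoImplicit false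
set_option linter.style.haveILetI false

namespace Fermat.Agent.S52

open WeierstrassCurve WeierstrassCurve.Affine IsLocalRing Polynomial Fermat.Agent.S58

noncomputable section

section main

variable [DecidableEq (RatFunc s52_Qb)] (a b : Polynomial ℚ)

/-- the coefficients over `ℚ̄` -/
abbrev s52p_aQ : Polynomial s52_Qb := a.map (algebraMap ℚ s52_Qb)

/-- The generic fibre over `ℚ̄(s)` of the family `y² = x³ + a(s) x + b(s)`, `a, b ∈ ℚ[s]`. -/
abbrev s52p_EEQ : Affine (RatFunc s52_Qb) := s52p_EE (s52p_aQ a) (s52p_aQ b)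

variable (c : ℚ)

omit [DecidableEq (RatFunc s52_Qb)] in
theorem s52p_eval_aQ : (s52p_aQ a).eval (algebraMap ℚ s52_Qb c) = algebraMap ℚ s52_Qb (a.eval c) := by
  rw [Polynomial.eval_map, Polynomial.eval₂_at_apply]

omit [DecidableEq (RatFunc s52_Qb)] in
/-- the fibre at a rational point is the base change of the fibre over `ℚ` -/
theorem s52p_fib_eq : s52p_fib (s52p_aQ a) (s52p_aQ b) (algebraMap ℚ s52_Qb c) =
    (s52n_short (a.eval c) (b.eval c))⁄s52_Qb := by
  show s52n_short _ _ = WeierstrassCurve.map (s52n_short (a.eval c) (b.eval c)) (algebraMap ℚ s52_Qb)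
  rw [s52n_short_map, s52p_eval_aQ, s52p_eval_aQ]

omit [DecidableEq (RatFunc s52_Qb)] in
theorem s52p_good_aQ (hc : 4 * (a.eval c) ^ 3 + 27 * (b.eval c) ^ 2 ≠ 0) :
    4 * ((s52p_aQ a).eval (algebraMap ℚ s52_Qb c)) ^ 3 +
      27 * ((s52p_aQ b).eval (algebraMap ℚ s52_Qb c)) ^ 2 ≠ 0 := by
  rw [s52p_eval_aQ, s52p_eval_aQ]
  intro h
  apply hc
  apply (algebraMap ℚ s52_Qb).injective
  rw [map_zero, ← h]
  simp only [map_add, map_mul, map_pow, map_ofNat]

omit [DecidableEq (RatFunc s52_Qb)] in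
theorem s52p_two_ne_zero : (2 : s52_Qb) ≠ 0 := two_ne_zero

/-- **Specialisation at the rational point `c`** (a place of good reduction). -/
def s52p_sp (hc : 4 * (a.eval c) ^ 3 + 27 * (b.eval c) ^ 2 ≠ 0) :
    (s52p_EEQ a b).Point →+ ((s52n_short (a.eval c) (b.eval c))⁄s52_Qb).Point :=
  (s52p_ptCast (s52p_fib_eq a b c)).toAddMonoidHom.comp
    (s52p_red (s52p_aQ a) (s52p_aQ b) (algebraMap ℚ s52_Qb c) (s52p_good_aQ a b c hc)
      s52p_two_ne_zero)

theorem s52p_sp_injective_on_torsion (hc : 4 * (a.eval c) ^ 3 + 27 * (b.eval c) ^ 2 ≠ 0)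
    {n : ℕ} (hn : n ≠ 0) {P : (s52p_EEQ a b).Point} (hP : n • P = 0)
    (h0 : s52p_sp a b c hc P = 0) : P = 0 := by
  apply s52p_red_injective_on_torsion (s52p_aQ a) (s52p_aQ b) (algebraMap ℚ s52_Qb c)
    (s52p_good_aQ a b c hc) s52p_two_ne_zero hn hP
  apply (s52p_ptCast (s52p_fib_eq a b c)).injective
  rw [map_zero]
  exact h0

section galois

variable (σ : s52_G)

omit [DecidableEq (RatFunc s52_Qb)] in
theorem s52p_aQ_map : (s52p_aQ a).map (σ : s52_Qb →+* s52_Qb) = s52p_aQ a := by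
  rw [s52p_aQ, Polynomial.map_map]
  congr 1
  ext x
  exact σ.commutes x

/-- The coefficientwise action of `Gal(ℚ̄/ℚ)` on the points of the generic fibre over `ℚ̄(s)`. -/
def s52p_act : (s52p_EEQ a b).Point →+ (s52p_EEQ a b).Point :=
  s52p_ptMapTo (s52p_mapF (σ : s52_Qb →+* s52_Qb))
    (s52p_EE_map (s52p_aQ a) (s52p_aQ b) (σ : s52_Qb →+* s52_Qb) (s52p_aQ_map a σ)
      (s52p_aQ_map b σ))

omit [DecidableEq (RatFunc s52_Qb)] in
/-- on a base-changed curve, the Galois action is the map on coordinates -/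
theorem s52p_smul_eq (E : Affine ℚ) (Q : (E⁄s52_Qb).Point)
    (h : WeierstrassCurve.map (E⁄s52_Qb) (σ : s52_Qb →+* s52_Qb) = E⁄s52_Qb) :
    σ • Q = s52p_ptMapTo (σ : s52_Qb →+* s52_Qb) h Q := by
  rcases Q with _ | ⟨x, y, hxy⟩
  · have h0 : (Point.zero : (E⁄s52_Qb).Point) = 0 := rfl
    rw [h0, map_zero]
    rfl
  · rw [s52p_ptMapTo_some]
    rfl

/-- **Specialisation commutes with the Galois action.** -/
theorem s52p_sp_smul (hc : 4 * (a.eval c) ^ 3 + 27 * (b.eval c) ^ 2 ≠ 0)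
    (P : (s52p_EEQ a b).Point) :
    s52p_sp a b c hc (s52p_act a b σ P) = σ • s52p_sp a b c hc P := by
  have hcσ : (σ : s52_Qb →+* s52_Qb) (algebraMap ℚ s52_Qb c) = algebraMap ℚ s52_Qb c :=
    σ.commutes c
  have hmap : WeierstrassCurve.map ((s52n_short (a.eval c) (b.eval c))⁄s52_Qb)
      (σ : s52_Qb →+* s52_Qb) = (s52n_short (a.eval c) (b.eval c))⁄s52_Qb := by
    rw [← s52p_fib_eq]
    exact s52p_fib_map (s52p_aQ a) (s52p_aQ b) _ _ (s52p_aQ_map a σ) (s52p_aQ_map b σ) hcσ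
  rw [s52p_smul_eq σ _ _ hmap]
  have h1 := s52p_red_equivariant (s52p_aQ a) (s52p_aQ b) (algebraMap ℚ s52_Qb c)
    (s52p_good_aQ a b c hc) s52p_two_ne_zero (σ : s52_Qb →+* s52_Qb) (s52p_aQ_map a σ)
    (s52p_aQ_map b σ) hcσ P
  show s52p_ptCast (s52p_fib_eq a b c) (s52p_red _ _ _ _ _ (s52p_act a b σ P)) =
    s52p_ptMapTo _ hmap (s52p_ptCast (s52p_fib_eq a b c) (s52p_red _ _ _ _ _ P))
  rw [show s52p_act a b σ P = s52p_ptMapTo (s52p_mapF (σ : s52_Qb →+* s52_Qb))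
    (s52p_EE_map (s52p_aQ a) (s52p_aQ b) (σ : s52_Qb →+* s52_Qb) (s52p_aQ_map a σ)
      (s52p_aQ_map b σ)) P from rfl, h1]
  -- transport along the equality of curves
  generalize s52p_red (s52p_aQ a) (s52p_aQ b) (algebraMap ℚ s52_Qb c) (s52p_good_aQ a b c hc)
    s52p_two_ne_zero P = Q
  rcases Q with _ | ⟨x, y, hxy⟩
  · have h0 : (Point.zero : (s52p_fib (s52p_aQ a) (s52p_aQ b) (algebraMap ℚ s52_Qb c)).Point) = 0 :=
      rfl
    rw [h0]
    simp only [map_zero]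
  · rw [s52p_ptMapTo_some, s52p_ptCast_some, s52p_ptCast_some, s52p_ptMapTo_some]

end galois

end main

end

end Fermat.Agent.S52
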