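/-
S52 [SPEC] (helper15; prefix `s52p_`), part 6: the isomorphism of Galois modules between the
5-torsion of two good rational fibres of a family whose 5-torsion is rational over `ℚ̄(s)`.
-/
import Fermat.Agent.S52.SPEC.Main

set_option autoImplicit false
set_option linter.style.haveILetI false

namespace Fermat.Agent.S52

open WeierstrassCurve WeierstrassCurve.Affine IsLocalRing Polynomial Fermat.Agent.S58

noncomputable section

section final

variable [DecidableEq (RatFunc s52_Qb)] (a b : Polynomial ℚ)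

/-- `n`-torsion as a subtype versus `Submodule.torsionBy`. -/
def s52p_torsEquiv {M : Type*} [AddCommGroup M] (n : ℕ) :
    {P : M // n • P = 0} ≃ ↥(Submodule.torsionBy ℤ M (n : ℤ)) :=
  Equiv.subtypeEquivRight (fun P => by rw [Submodule.mem_torsionBy_iff, natCast_zsmul])

omit [DecidableEq (RatFunc s52_Qb)] in
/-- the 5-torsion of an elliptic curve over `ℚ̄` has 25 elements -/
theorem s52p_card_tors (A B : ℚ) (h : 4 * A ^ 3 + 27 * B ^ 2 ≠ 0) :
    Nat.card (s52_Tors (s52n_short A B) 5) = 25 := by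
  have hΔ : ((s52n_short A B)⁄s52_Qb).Δ ≠ 0 := by
    show (WeierstrassCurve.map (s52n_short A B) (algebraMap ℚ s52_Qb)).Δ ≠ 0
    rw [WeierstrassCurve.map_Δ, s52n_short_Δ]
    intro h0
    have h1 := (map_eq_zero (algebraMap ℚ s52_Qb)).1 h0
    have h16 : (-16 : ℚ) ≠ 0 := by norm_num
    exact (mul_ne_zero h16 h) h1
  have h1 := Fermat.Agent.S13.ld_card_torsion ((s52n_short A B)⁄s52_Qb) hΔ (n := 5) (by decide)
  rw [← Nat.card_congr (s52p_torsEquiv (M := ((s52n_short A B)⁄s52_Qb).Point) 5)]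
  rw [h1]
  norm_num

variable (c : ℚ) (hc : 4 * (a.eval c) ^ 3 + 27 * (b.eval c) ^ 2 ≠ 0)

/-- specialisation on the 5-torsion -/
def s52p_sp5 : ↥(Submodule.torsionBy ℤ (s52p_EEQ a b).Point ((5 : ℕ) : ℤ)) →+
    s52_Tors (s52n_short (a.eval c) (b.eval c)) 5 where
  toFun P := ⟨s52p_sp a b c hc P.1, by
    rw [Submodule.mem_torsionBy_iff, ← map_zsmul, (Submodule.mem_torsionBy_iff _ _).1 P.2,
      map_zero]⟩
  map_zero' := Subtype.ext (map_zero _)
  map_add' P Q := Subtype.ext (map_add _ _ _)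

theorem s52p_sp5_injective : Function.Injective (s52p_sp5 a b c hc) := by
  rw [injective_iff_map_eq_zero]
  intro P hP
  have h1 : s52p_sp a b c hc P.1 = 0 := congrArg Subtype.val hP
  have h2 : (5 : ℕ) • P.1 = 0 := by
    have := (Submodule.mem_torsionBy_iff _ _).1 P.2
    rwa [natCast_zsmul] at this
  exact Subtype.ext (s52p_sp_injective_on_torsion a b c hc (by norm_num) h2 h1)

theorem s52p_sp5_bijective
    (h25 : 25 ≤ Nat.card {P : (s52p_EEQ a b).Point // (5 : ℕ) • P = 0}) :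
    Function.Bijective (s52p_sp5 a b c hc) := by
  have hcard := s52p_card_tors (a.eval c) (b.eval c) hc
  have : Finite (s52_Tors (s52n_short (a.eval c) (b.eval c)) 5) :=
    Nat.finite_of_card_ne_zero (by rw [hcard]; norm_num)
  refine (s52p_sp5_injective a b c hc).bijective_of_nat_card_le ?_
  rw [hcard, ← Nat.card_congr (s52p_torsEquiv (M := (s52p_EEQ a b).Point) 5)]
  exact h25

/-- the Galois action on the 5-torsion of the generic fibre -/
def s52p_act5 (σ : s52_G) (P : ↥(Submodule.torsionBy ℤ (s52p_EEQ a b).Point ((5 : ℕ) : ℤ))) :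
    ↥(Submodule.torsionBy ℤ (s52p_EEQ a b).Point ((5 : ℕ) : ℤ)) :=
  ⟨s52p_act a b σ P.1, by
    have h := (Submodule.mem_torsionBy_iff _ _).1 P.2
    rw [Submodule.mem_torsionBy_iff]
    rw [natCast_zsmul] at h ⊢
    rw [← map_nsmul, h, map_zero]⟩

theorem s52p_sp5_act5 (σ : s52_G)
    (P : ↥(Submodule.torsionBy ℤ (s52p_EEQ a b).Point ((5 : ℕ) : ℤ))) :
    s52p_sp5 a b c hc (s52p_act5 a b σ P) = σ • s52p_sp5 a b c hc P :=
  Subtype.ext (s52p_sp_smul a b c σ hc P.1)

end final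

/-- **[SPEC]**: if the `25` points of order dividing `5` of the generic fibre of
`y² = x³ + a(s) x + b(s)` (`a, b ∈ ℚ[s]`) are rational over `ℚ̄(s)`, then the fibres at any two
rational points of good reduction have isomorphic `5`-torsion as `Gal(ℚ̄/ℚ)`-modules. -/
theorem s52p_main [DecidableEq (RatFunc s52_Qb)] (a b : Polynomial ℚ)
    (h25 : 25 ≤ Nat.card {P : (s52p_EEQ a b).Point // (5 : ℕ) • P = 0})
    (c₁ c₂ : ℚ) (h₁ : 4 * (a.eval c₁) ^ 3 + 27 * (b.eval c₁) ^ 2 ≠ 0)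
    (h₂ : 4 * (a.eval c₂) ^ 3 + 27 * (b.eval c₂) ^ 2 ≠ 0) :
    s52_TorsIso (s52n_short (a.eval c₁) (b.eval c₁)) (s52n_short (a.eval c₂) (b.eval c₂)) 5 := by
  set e₁ := AddEquiv.ofBijective (s52p_sp5 a b c₁ h₁) (s52p_sp5_bijective a b c₁ h₁ h25) with he₁
  set e₂ := AddEquiv.ofBijective (s52p_sp5 a b c₂ h₂) (s52p_sp5_bijective a b c₂ h₂ h25) with he₂
  refine ⟨e₁.symm.trans e₂, fun σ P => ?_⟩
  have h1 : e₁.symm (σ • P) = s52p_act5 a b σ (e₁.symm P) := by
    rw [AddEquiv.symm_apply_eq]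
    show σ • P = s52p_sp5 a b c₁ h₁ (s52p_act5 a b σ (e₁.symm P))
    rw [s52p_sp5_act5]
    congr 1
    exact (e₁.apply_symm_apply P).symm
  show e₂ (e₁.symm (σ • P)) = σ • e₂ (e₁.symm P)
  rw [h1]
  exact s52p_sp5_act5 a b c₂ h₂ σ (e₁.symm P)

end

end Fermat.Agent.S52
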