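/-
S52 [SPEC] (helper15; prefix `s52p_`), part 8: the embedding `θ : ℚ̄(s) = RatFunc s52_Qb → Ω`
(`Ω = s52_Om` an algebraic closure of `ℚ(s)`), whose range contains `s52_KbarS`.
-/
import Fermat.Agent.S52.Geom.Seams

set_option autoImplicit false
set_option linter.style.haveILetI false

namespace Fermat.Agent.S52

open Polynomial

noncomputable section

/-- the generic point `s ∈ Ω` -/
def s52p_s : s52_Om := algebraMap (RatFunc ℚ) s52_Om RatFunc.X

/-- evaluation of a rational polynomial at `s` (along any ring hom `ℚ → Ω`) -/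
theorem s52p_eval_s (f : ℚ →+* s52_Om) (A : Polynomial ℚ) :
    Polynomial.eval₂ f s52p_s A =
      algebraMap (RatFunc ℚ) s52_Om (algebraMap (Polynomial ℚ) (RatFunc ℚ) A) := by
  have hf : f = (algebraMap (RatFunc ℚ) s52_Om).comp
      ((algebraMap (Polynomial ℚ) (RatFunc ℚ)).comp Polynomial.C) := Subsingleton.elim _ _
  rw [hf, s52p_s, ← Polynomial.hom_eval₂, ← RatFunc.algebraMap_X, ← Polynomial.hom_eval₂,
    Polynomial.eval₂_C_X]

theorem s52p_eval_s_injective (f : ℚ →+* s52_Om) (A : Polynomial ℚ)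
    (h : Polynomial.eval₂ f s52p_s A = 0) : A = 0 := by
  rw [s52p_eval_s] at h
  have h1 := (map_eq_zero (algebraMap (RatFunc ℚ) s52_Om)).1 h
  exact (map_eq_zero_iff _ (RatFunc.algebraMap_injective ℚ)).1 h1

/-- an embedding of `ℚ̄` into `Ω` -/
def s52p_psi : s52_Qb →ₐ[ℚ] s52_Om :=
  haveI : Algebra.IsAlgebraic ℚ s52_Qb := AlgebraicClosure.isAlgebraic ℚ
  IsAlgClosed.lift

theorem s52p_psi_range (z : s52_Om) (hz : z ∈ algebraicClosure ℚ s52_Om) :
    z ∈ s52p_psi.range := by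
  have hint : IsIntegral ℚ z := mem_algebraicClosure_iff'.1 hz
  exact hint.mem_range_algHom_of_minpoly_splits (IsAlgClosed.splits _) s52p_psi

/-- evaluation `ℚ̄[X] → Ω` at `s` -/
def s52p_evs : Polynomial s52_Qb →+* s52_Om :=
  Polynomial.eval₂RingHom (s52p_psi : s52_Qb →+* s52_Om) s52p_s

theorem s52p_evs_injective : Function.Injective s52p_evs := by
  rw [injective_iff_map_eq_zero]
  intro p hp
  by_contra hne
  haveI : Algebra.IsAlgebraic ℚ s52_Qb := AlgebraicClosure.isAlgebraic ℚ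
  letI : Algebra s52_Qb s52_Om := (s52p_psi : s52_Qb →+* s52_Om).toAlgebra
  haveI : IsScalarTower ℚ s52_Qb s52_Om :=
    IsScalarTower.of_algebraMap_eq (fun q => (s52p_psi.commutes q).symm)
  have h1 : IsAlgebraic s52_Qb s52p_s := ⟨p, hne, hp⟩
  obtain ⟨q, hq, hq0⟩ := h1.restrictScalars ℚ
  rw [Polynomial.aeval_def] at hq0
  exact hq (s52p_eval_s_injective _ q hq0)

/-- **the embedding** `ℚ̄(s) → Ω` -/
def s52p_theta : RatFunc s52_Qb →+* s52_Om :=
  RatFunc.liftRingHom s52p_evs (by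
    intro p hp
    rw [Submonoid.mem_comap]
    exact mem_nonZeroDivisors_of_ne_zero
      (fun h => (mem_nonZeroDivisors_iff_ne_zero.1 hp)
        (s52p_evs_injective (h.trans (map_zero _).symm))))

theorem s52p_theta_algebraMap (p : Polynomial s52_Qb) :
    s52p_theta (algebraMap (Polynomial s52_Qb) (RatFunc s52_Qb) p) = s52p_evs p :=
  RatFunc.liftRingHom_algebraMap _ _ _

theorem s52p_theta_C (z : s52_Qb) : s52p_theta (RatFunc.C z) = s52p_psi z := by
  rw [← RatFunc.algebraMap_C, s52p_theta_algebraMap]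
  simp [s52p_evs]

theorem s52p_theta_X : s52p_theta RatFunc.X = s52p_s := by
  rw [← RatFunc.algebraMap_X, s52p_theta_algebraMap]
  simp [s52p_evs]

/-- on polynomials over `ℚ`, `θ` is evaluation at `s` -/
theorem s52p_theta_poly (A : Polynomial ℚ) :
    s52p_theta (algebraMap (Polynomial s52_Qb) (RatFunc s52_Qb) (A.map (algebraMap ℚ s52_Qb))) =
      algebraMap (RatFunc ℚ) s52_Om (algebraMap (Polynomial ℚ) (RatFunc ℚ) A) := by
  rw [s52p_theta_algebraMap, ← s52p_eval_s ((s52p_psi : s52_Qb →+* s52_Om).comp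
    (algebraMap ℚ s52_Qb))]
  show Polynomial.eval₂ _ _ _ = _
  rw [Polynomial.eval₂_map]

/-- `ℚ̄(s) ⊆ Ω` is contained in the range of `θ` -/
theorem s52p_KbarS_le : s52_KbarS ≤ s52p_theta.fieldRange := by
  refine Subfield.closure_le.2 ?_
  rintro z (hz | hz)
  · obtain ⟨w, rfl⟩ := s52p_psi_range z hz
    exact ⟨RatFunc.C w, s52p_theta_C w⟩
  · rw [Set.mem_singleton_iff] at hz
    exact ⟨RatFunc.X, hz ▸ s52p_theta_X⟩

/-- polynomials in `s` over `ℚ` lie in `ℚ̄(s)` -/
theorem s52p_poly_mem (d : Polynomial ℚ) :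
    algebraMap (RatFunc ℚ) s52_Om (algebraMap (Polynomial ℚ) (RatFunc ℚ) d) ∈ s52_KbarS := by
  rw [← s52p_eval_s (algebraMap ℚ s52_Om), Polynomial.eval₂_eq_sum_range]
  have hs : s52p_s ∈ s52_KbarS := by
    unfold s52_KbarS
    exact Subfield.subset_closure (Or.inr rfl)
  have hq : ∀ q : ℚ, algebraMap ℚ s52_Om q ∈ s52_KbarS := by
    intro q
    unfold s52_KbarS
    exact Subfield.subset_closure (Or.inl ((algebraicClosure ℚ s52_Om).algebraMap_mem q))
  exact sum_mem (fun i _ => mul_mem (hq _) (pow_mem hs _))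

end

end Fermat.Agent.S52
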