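/-
S52 [SPEC] (helper15; prefix `s52p_`), part 7: **pull-back of torsion points along a field
embedding**.  If every `n`-torsion point of `W(Ω)` has its coordinates in the image of
`θ : F →+* Ω`, then `W(F)[n] → W(Ω)[n]` is bijective.  Mathlib only (+ `SPEC/PtMap`).
-/
import Fermat.Agent.S52.SPEC.PtMap

set_option autoImplicit false

namespace Fermat.Agent.S52

open WeierstrassCurve WeierstrassCurve.Affine

section pull

variable {F Ω : Type*} [Field F] [Field Ω] [DecidableEq F] [DecidableEq Ω]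

/-- the map on `n`-torsion points induced by a field embedding -/
noncomputable def s52p_pull (θ : F →+* Ω) {W : Affine F} {W' : Affine Ω} (h : W.map θ = W')
    (n : ℕ) : {P : W.Point // n • P = 0} → {P' : W'.Point // n • P' = 0} :=
  fun P => ⟨s52p_ptMapTo θ h P.1, by rw [← map_nsmul, P.2, map_zero]⟩

theorem s52p_pull_injective (θ : F →+* Ω) {W : Affine F} {W' : Affine Ω} (h : W.map θ = W')
    (n : ℕ) : Function.Injective (s52p_pull θ h n) := by
  intro P Q hPQ
  apply Subtype.ext
  apply s52p_ptMapTo_injective θ h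
  exact congrArg Subtype.val hPQ

/-- a point of `W'(Ω)` with coordinates in the range of `θ` comes from `W(F)` -/
theorem s52p_exists_of_mem_range (θ : F →+* Ω) {W : Affine F} {W' : Affine Ω}
    (h : W.map θ = W') {x y : Ω} (hxy : W'.Nonsingular x y) (hx : x ∈ θ.range)
    (hy : y ∈ θ.range) : ∃ P : W.Point, s52p_ptMapTo θ h P = Point.some x y hxy := by
  obtain ⟨x₀, rfl⟩ := hx
  obtain ⟨y₀, rfl⟩ := hy
  have h0 : W.Nonsingular x₀ y₀ := by
    subst h
    exact (W.map_nonsingular θ.injective x₀ y₀).mp hxy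
  exact ⟨Point.some x₀ y₀ h0, s52p_ptMapTo_some θ h h0⟩

theorem s52p_pull_surjective (θ : F →+* Ω) {W : Affine F} {W' : Affine Ω} (h : W.map θ = W')
    (n : ℕ)
    (hrat : ∀ (x y : Ω) (hxy : W'.Nonsingular x y),
      n • (Point.some x y hxy : W'.Point) = 0 → x ∈ θ.range ∧ y ∈ θ.range) :
    Function.Surjective (s52p_pull θ h n) := by
  rintro ⟨P', hP'⟩
  rcases P' with _ | ⟨x, y, hxy⟩
  · exact ⟨⟨0, smul_zero n⟩, Subtype.ext (map_zero _)⟩
  · obtain ⟨hx, hy⟩ := hrat x y hxy hP'
    obtain ⟨P, hP⟩ := s52p_exists_of_mem_range θ h hxy hx hy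
    have hnP : n • P = 0 := by
      apply s52p_ptMapTo_injective θ h
      rw [map_nsmul, hP, map_zero]
      exact hP'
    exact ⟨⟨P, hnP⟩, Subtype.ext hP⟩

/-- **pull-back**: if all `n`-torsion points over `Ω` have coordinates in the range of `θ`,
then `W(F)` and `W'(Ω)` have the same number of `n`-torsion points. -/
theorem s52p_pull_card (θ : F →+* Ω) {W : Affine F} {W' : Affine Ω} (h : W.map θ = W')
    (n : ℕ)
    (hrat : ∀ (x y : Ω) (hxy : W'.Nonsingular x y),
      n • (Point.some x y hxy : W'.Point) = 0 → x ∈ θ.range ∧ y ∈ θ.range) :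
    Nat.card {P : W.Point // n • P = 0} = Nat.card {P' : W'.Point // n • P' = 0} :=
  Nat.card_congr (Equiv.ofBijective (s52p_pull θ h n)
    ⟨s52p_pull_injective θ h n, s52p_pull_surjective θ h n hrat⟩)

end pull

end Fermat.Agent.S52
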