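/-
S52 [SPEC] (helper15; prefix `s52p_`), part 9: **the seam `s52_Spec_stmt`** of
`S52/Geom/Seams.lean`, closed:  `s52p_spec : s52_Spec_stmt`.

Route: `s52_T5 a b` (all 5-torsion of `y² = x³ + a x + b` over `Ω` has coordinates in `ℚ̄(s)`)
`⟹` the same for the polynomial pair `(A, B) = (d⁴ a, d⁶ b)`, `d = denom a · denom b`
(change of variables over `Ω`) `⟹` the `25` points are rational over `RatFunc s52_Qb`
(pull-back along `θ`) `⟹` `s52p_main` `⟹` scale back over `ℚ` at `c₁, c₂` (`s52d_red`).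
-/
import Fermat.Agent.S52.SPEC.Final
import Fermat.Agent.S52.SPEC.Pull
import Fermat.Agent.S52.SPEC.Emb
import Fermat.Agent.S52.RED.Main

set_option autoImplicit false
set_option linter.style.haveILetI false

namespace Fermat.Agent.S52

open WeierstrassCurve WeierstrassCurve.Affine Polynomial Fermat.Agent.LR

noncomputable section

section scale

variable {L : Type*} [Field L]

/-- the scaling change of variables `(x, y) ↦ (δ² x, δ³ y)` -/
def s52p_scaleC (δ : L) (hδ : δ ≠ 0) : VariableChange L := ⟨(Units.mk0 δ hδ)⁻¹, 0, 0, 0⟩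

theorem s52p_scaleC_smul (α β δ : L) (hδ : δ ≠ 0) :
    s52p_scaleC δ hδ • s52n_short α β = s52n_short (δ ^ 4 * α) (δ ^ 6 * β) := by
  rw [variableChange_def]
  ext <;> simp [s52p_scaleC, s52n_short]

variable [DecidableEq L]

/-- the additive map on points of a change of variables -/
def s52p_vcHom (C : VariableChange L) (W : Affine L) {W' : Affine L} (hW : C • W = W') :
    W.Point →+ W'.Point where
  toFun := s52d_map C W hW
  map_zero' := rfl
  map_add' := s52d_map_add C W hW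

/-- rationality of the `n`-torsion over a subfield containing `δ` is invariant under the scaling
`(α, β) ↦ (δ⁴ α, δ⁶ β)` -/
theorem s52p_scale_rat (S : Subfield L) (α β δ : L) (hδ : δ ≠ 0) (hδS : δ ∈ S) (n : ℕ)
    (h : ∀ (x y : L) (hxy : (s52n_short α β).toAffine.Nonsingular x y),
      n • (Point.some x y hxy : (s52n_short α β).toAffine.Point) = 0 → x ∈ S ∧ y ∈ S) :
    ∀ (x y : L) (hxy : (s52n_short (δ ^ 4 * α) (δ ^ 6 * β)).toAffine.Nonsingular x y),
      n • (Point.some x y hxy : (s52n_short (δ ^ 4 * α) (δ ^ 6 * β)).toAffine.Point) = 0 →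
        x ∈ S ∧ y ∈ S := by
  intro x y hxy hn
  have hC := s52p_scaleC_smul α β δ hδ
  set f := s52p_vcHom (s52p_scaleC δ hδ) (s52n_short α β).toAffine hC with hf
  have hinj : Function.Injective f := s52d_map_injective _ _ hC
  obtain ⟨P, hP⟩ := s52d_map_surjective (s52p_scaleC δ hδ) (s52n_short α β).toAffine hC
    (Point.some x y hxy)
  have hP' : f P = Point.some x y hxy := hP
  have hnP : n • P = 0 := by
    apply hinj
    rw [map_nsmul, hP', map_zero]
    exact hn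
  rcases P with _ | ⟨x₀, y₀, h₀⟩
  · exact absurd hP'.symm (Point.some_ne_zero _)
  · obtain ⟨hx₀, hy₀⟩ := h x₀ y₀ h₀ hnP
    have hsome : Point.some (lrvc_X (s52p_scaleC δ hδ) x₀) (lrvc_Y (s52p_scaleC δ hδ) x₀ y₀) _ =
        Point.some x y hxy := hP
    have hx : lrvc_X (s52p_scaleC δ hδ) x₀ = x := (Point.some.inj hsome).1
    have hy : lrvc_Y (s52p_scaleC δ hδ) x₀ y₀ = y := (Point.some.inj hsome).2
    have hu : ((↑(s52p_scaleC δ hδ).u⁻¹ : L)) = δ := by
      simp [s52p_scaleC]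
    constructor
    · rw [← hx, lrvc_X, hu]
      exact mul_mem (pow_mem hδS _) (sub_mem hx₀ (by simp [s52p_scaleC]))
    · rw [← hy, lrvc_Y, hu]
      refine mul_mem (pow_mem hδS _) (sub_mem (sub_mem hy₀ ?_) ?_)
      · simp [s52p_scaleC]
      · simp [s52p_scaleC]

end scale

section clear

/-- the polynomial `d⁴ a`, `d = denom a · denom b` -/
def s52p_numA (a b : RatFunc ℚ) : Polynomial ℚ := a.num * a.denom ^ 3 * b.denom ^ 4

/-- the polynomial `d⁶ b`, `d = denom a · denom b` -/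
def s52p_numB (a b : RatFunc ℚ) : Polynomial ℚ := b.num * b.denom ^ 5 * a.denom ^ 6

theorem s52p_numA_eq (a b : RatFunc ℚ) :
    algebraMap (Polynomial ℚ) (RatFunc ℚ) (s52p_numA a b) =
      (algebraMap (Polynomial ℚ) (RatFunc ℚ) (a.denom * b.denom)) ^ 4 * a := by
  have hd : algebraMap (Polynomial ℚ) (RatFunc ℚ) a.denom ≠ 0 :=
    (map_ne_zero_iff _ (RatFunc.algebraMap_injective ℚ)).2 (RatFunc.denom_ne_zero a)
  have key : ∀ (n m m' x : RatFunc ℚ), m ≠ 0 → n / m = x →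
      n * m ^ 3 * m' ^ 4 = (m * m') ^ 4 * x := by
    intro n m m' x hm hx
    rw [← hx]
    field_simp
  simp only [s52p_numA, map_mul, map_pow]
  exact key _ _ _ _ hd (RatFunc.num_div_denom a)

theorem s52p_numB_eq (a b : RatFunc ℚ) :
    algebraMap (Polynomial ℚ) (RatFunc ℚ) (s52p_numB a b) =
      (algebraMap (Polynomial ℚ) (RatFunc ℚ) (a.denom * b.denom)) ^ 6 * b := by
  have hd : algebraMap (Polynomial ℚ) (RatFunc ℚ) b.denom ≠ 0 :=
    (map_ne_zero_iff _ (RatFunc.algebraMap_injective ℚ)).2 (RatFunc.denom_ne_zero b)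
  have key : ∀ (n m m' x : RatFunc ℚ), m ≠ 0 → n / m = x →
      n * m ^ 5 * m' ^ 6 = (m' * m) ^ 6 * x := by
    intro n m m' x hm hx
    rw [← hx]
    field_simp
  simp only [s52p_numB, map_mul, map_pow]
  exact key _ _ _ _ hd (RatFunc.num_div_denom b)

theorem s52p_ev_eq (a : RatFunc ℚ) (c : ℚ) : s52_ev a c = a.num.eval c / a.denom.eval c := by
  rw [s52_ev, RatFunc.eval, Polynomial.eval₂_id, Polynomial.eval₂_id]

theorem s52p_numA_eval (a b : RatFunc ℚ) (c : ℚ) (ha : a.denom.eval c ≠ 0) :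
    (s52p_numA a b).eval c = ((a.denom * b.denom).eval c) ^ 4 * s52_ev a c := by
  rw [s52p_ev_eq]
  simp only [s52p_numA, Polynomial.eval_mul, Polynomial.eval_pow]
  field_simp

theorem s52p_numB_eval (a b : RatFunc ℚ) (c : ℚ) (hb : b.denom.eval c ≠ 0) :
    (s52p_numB a b).eval c = ((a.denom * b.denom).eval c) ^ 6 * s52_ev b c := by
  rw [s52p_ev_eq]
  simp only [s52p_numB, Polynomial.eval_mul, Polynomial.eval_pow]
  field_simp

end clear

/-- **the seam [SPEC]** of `S52/Geom/Seams.lean`. -/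
theorem s52p_spec : s52_Spec_stmt := by
  classical
  intro a b hT5 c₁ c₂ hg₁ hg₂
  obtain ⟨hda₁, hdb₁, hΔ₁⟩ := hg₁
  obtain ⟨hda₂, hdb₂, hΔ₂⟩ := hg₂
  set d : Polynomial ℚ := a.denom * b.denom with hd
  set A : Polynomial ℚ := s52p_numA a b with hA
  set B : Polynomial ℚ := s52p_numB a b with hB
  have hdc₁ : d.eval c₁ ≠ 0 := by
    rw [hd, Polynomial.eval_mul]; exact mul_ne_zero hda₁ hdb₁
  have hdc₂ : d.eval c₂ ≠ 0 := by
    rw [hd, Polynomial.eval_mul]; exact mul_ne_zero hda₂ hdb₂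
  have hd0 : d ≠ 0 := fun h => hdc₁ (by rw [h, Polynomial.eval_zero])
  -- the discriminants at `c₁`, `c₂`
  have hdisc : ∀ c : ℚ, a.denom.eval c ≠ 0 → b.denom.eval c ≠ 0 →
      4 * (s52_ev a c) ^ 3 + 27 * (s52_ev b c) ^ 2 ≠ 0 →
      4 * (A.eval c) ^ 3 + 27 * (B.eval c) ^ 2 ≠ 0 := by
    intro c hac hbc hΔ
    rw [hA, hB, s52p_numA_eval a b c hac, s52p_numB_eval a b c hbc]
    have hdc : (a.denom * b.denom).eval c ≠ 0 := by
      rw [Polynomial.eval_mul]; exact mul_ne_zero hac hbc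
    intro h
    apply hΔ
    have h12 : ((a.denom * b.denom).eval c) ^ 12 ≠ 0 := pow_ne_zero 12 hdc
    apply mul_left_cancel₀ h12
    rw [mul_zero, ← h]
    ring
  have h₁ := hdisc c₁ hda₁ hdb₁ hΔ₁
  have h₂ := hdisc c₂ hda₂ hdb₂ hΔ₂
  -- the curve over `Ω`
  set φ : Polynomial ℚ →+* s52_Om :=
    (algebraMap (RatFunc ℚ) s52_Om).comp (algebraMap (Polynomial ℚ) (RatFunc ℚ)) with hφ
  have hφinj : Function.Injective φ :=
    (algebraMap (RatFunc ℚ) s52_Om).injective.comp (RatFunc.algebraMap_injective ℚ)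
  set δ : s52_Om := φ d with hδ
  have hδ0 : δ ≠ 0 := (map_ne_zero_iff φ hφinj).2 hd0
  have hδS : δ ∈ s52_KbarS := s52p_poly_mem d
  set α : s52_Om := algebraMap (RatFunc ℚ) s52_Om a with hα
  set β : s52_Om := algebraMap (RatFunc ℚ) s52_Om b with hβ
  have hE : ((s52_shortK a b)⁄s52_Om) = s52n_short α β :=
    s52n_short_map a b (algebraMap (RatFunc ℚ) s52_Om)
  have hrat0 : ∀ (x y : s52_Om) (hxy : (s52n_short α β).toAffine.Nonsingular x y),
      5 • (Point.some x y hxy : (s52n_short α β).toAffine.Point) = 0 →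
        x ∈ s52_KbarS ∧ y ∈ s52_KbarS := by
    rw [← hE]
    intro x y hxy h5
    exact hT5 _ h5 x y hxy rfl
  have hrat1 := s52p_scale_rat s52_KbarS α β δ hδ0 hδS 5 hrat0
  have hαA : δ ^ 4 * α = φ A := by
    rw [hδ, hα, hφ, RingHom.comp_apply, RingHom.comp_apply, hA, s52p_numA_eq, hd]
    simp only [map_mul, map_pow]
  have hβB : δ ^ 6 * β = φ B := by
    rw [hδ, hβ, hφ, RingHom.comp_apply, RingHom.comp_apply, hB, s52p_numB_eq, hd]
    simp only [map_mul, map_pow]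
  rw [hαA, hβB] at hrat1
  -- pull back along `θ`
  have hmap : (s52p_EEQ A B).map s52p_theta = s52n_short (φ A) (φ B) := by
    show (s52n_short _ _).map s52p_theta = _
    rw [s52n_short_map, s52p_theta_poly, s52p_theta_poly]
    rfl
  have hrat2 : ∀ (x y : s52_Om) (hxy : (s52n_short (φ A) (φ B)).toAffine.Nonsingular x y),
      5 • (Point.some x y hxy : (s52n_short (φ A) (φ B)).toAffine.Point) = 0 →
        x ∈ s52p_theta.range ∧ y ∈ s52p_theta.range := by
    intro x y hxy h5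
    obtain ⟨hx, hy⟩ := hrat1 x y hxy h5
    exact ⟨s52p_KbarS_le hx, s52p_KbarS_le hy⟩
  have hcard := s52p_pull_card s52p_theta hmap 5 hrat2
  have hΔΩ : (s52n_short (φ A) (φ B)).toAffine.Δ ≠ 0 := by
    rw [s52n_short_Δ]
    have hne : (4 * A ^ 3 + 27 * B ^ 2 : Polynomial ℚ) ≠ 0 := by
      intro h
      apply h₁
      have := congrArg (Polynomial.eval c₁) h
      simpa using this
    have h16 : (-16 : s52_Om) ≠ 0 := by norm_num
    refine mul_ne_zero h16 ?_
    have h4 : φ (4 * A ^ 3 + 27 * B ^ 2) = 4 * φ A ^ 3 + 27 * φ B ^ 2 := by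
      simp only [map_add, map_mul, map_pow, map_ofNat]
    rw [← h4]
    exact (map_ne_zero_iff φ hφinj).2 hne
  have h25 : 25 ≤ Nat.card {P : (s52p_EEQ A B).Point // (5 : ℕ) • P = 0} := by
    rw [hcard, Fermat.Agent.S13.ld_card_torsion _ hΔΩ (n := 5) (by decide)]
    norm_num
  have main := s52p_main A B h25 c₁ c₂ h₁ h₂
  -- scale back over `ℚ`
  have e₁ : s52n_short (A.eval c₁) (B.eval c₁) =
      s52_short ((d.eval c₁) ^ 4 * s52_ev a c₁) ((d.eval c₁) ^ 6 * s52_ev b c₁) := by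
    rw [hA, hB, s52p_numA_eval a b c₁ hda₁, s52p_numB_eval a b c₁ hdb₁]
    rfl
  have e₂ : s52n_short (A.eval c₂) (B.eval c₂) =
      s52_short ((d.eval c₂) ^ 4 * s52_ev a c₂) ((d.eval c₂) ^ 6 * s52_ev b c₂) := by
    rw [hA, hB, s52p_numA_eval a b c₂ hda₂, s52p_numB_eval a b c₂ hdb₂]
    rfl
  rw [e₁, e₂] at main
  obtain ⟨C₁, hC₁⟩ := s52_short_scale (s52_ev a c₁) (s52_ev b c₁) (d.eval c₁) hdc₁
  obtain ⟨C₂, hC₂⟩ := s52_short_scale (s52_ev a c₂) (s52_ev b c₂) (d.eval c₂) hdc₂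
  have iso₁ := s52d_red.1 _ _ ⟨C₁, hC₁⟩ 5
  have iso₂ := s52d_red.1 _ _ ⟨C₂, hC₂⟩ 5
  exact (iso₁.trans main).trans iso₂.symm

end

end Fermat.Agent.S52
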